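/-
Cluster E' (Mazur, S15), seat E-MC (sub-architect helper15): the moduli point of `(E, C)` on `X₀(p)`.
DEFINITIONS.  Route (an): complex uniformisation `ℂ/Λ ≅ E_Λ(ℂ)` by Mathlib's `℘`, Vélu's quotient of
`E_Λ` by `Λ'/Λ` is `E_Λ'` (lattice sums), and the analytic modular equation from the `q`-expansion
dictionary of S24 (`Fermat.Agent.F3Dict`).  See NOTES/blueprint-E-MC.md.
-/
import Mathlib
import Fermat.Prelude.Def_ModularCurve_X0
import Fermat.Agent.MUL.Orig.E.S12.VeluSpec
import Fermat.Agent.MUL.S17.H.Pos.PosGlob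

set_option autoImplicit false

noncomputable section

namespace Fermat.Agent.EMC

open WeierstrassCurve

/-- The `j`-invariant of a Weierstrass curve over a field, `c₄³ / Δ` (junk value `0` if `Δ = 0`). -/
def jInv {k : Type*} [Field k] (W : WeierstrassCurve k) : k := W.c₄ ^ 3 / W.Δ

/-- Evaluation of an integer polynomial in two variables `P(X)(Y)` at `X = a`, `Y = b`
(the inner variable is `X`, the outer one `Y`, as in `ModularCurve.ModularPolynomialData`). -/
def eval2 {k : Type*} [CommRing k] (P : Polynomial (Polynomial ℤ)) (a b : k) : k :=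
  P.eval₂ (Polynomial.eval₂RingHom (Int.castRingHom k) a) b

/-- `P(j(q), j(q^N)) = 0` in `ℚ((q))`: `P` is an algebraic relation between `j` and `j_N`. -/
def IsJRel (N : ℕ) [NeZero N] (P : Polynomial (Polynomial ℤ)) : Prop :=
  P.eval₂ ModularCurve.evalAtJ (ModularCurve.jqN N) = 0

theorem isJRel_Φ {N : ℕ} [NeZero N] (data : ModularCurve.ModularPolynomialData N) :
    IsJRel N data.Φ := data.eval_eq_zero

/-- The elliptic curve `y² = x³ - (g₂/4) x - g₃/4` of a lattice; `(℘, ℘'/2)` lies on it. -/
def latE (L : PeriodPair) : WeierstrassCurve ℂ := ⟨0, 0, 0, -L.g₂ / 4, -L.g₃ / 4⟩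

variable [DecidableEq ℂ]

open Classical in
/-- The Weierstrass parametrisation `z ↦ (℘(z), ℘'(z)/2)`, `Λ ↦ 0`. -/
def latMap (L : PeriodPair) (z : ℂ) : (latE L).toAffine.Point :=
  if h : z ∉ L.lattice ∧ (latE L).toAffine.Nonsingular (L.weierstrassP z) (L.derivWeierstrassP z / 2)
  then .some (L.weierstrassP z) (L.derivWeierstrassP z / 2) h.2 else 0

/-- The standard period pair `(1, τ)`. -/
def stdPair (τ : UpperHalfPlane) : PeriodPair where
  ω₁ := 1
  ω₂ := (τ : ℂ)
  indep := by
    rw [LinearIndependent.pair_iff]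
    intro s t h
    have him := congrArg Complex.im h
    have hre := congrArg Complex.re h
    simp at him hre
    have ht : t = 0 := by
      rcases him with h1 | h1
      · exact h1
      · exact absurd h1 (ne_of_gt τ.im_pos)
    subst ht
    simp at hre
    exact ⟨hre, rfl⟩

end Fermat.Agent.EMC
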