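/-
Cluster E' (Mazur, S15), seat E-MC (sub-architect helper15): EXACT STATEMENTS of the leaves, as Props.
Owners prove `theorem xxx : XxxStatement` in their own file `Fermat/Agent/E/MC/<Seat>*.lean`
(namespace `Fermat.Agent.EMC`).  See NOTES/blueprint-E-MC.md.

Target of the seat: `ModEqStatement p` (the modular equation for the Vélu quotient over `ℚ̄`).
-/
import Fermat.Agent.MUL.Orig.E.MC.Defs
import Fermat.Agent.MUL.S17.H.Pos.WeilAll

set_option autoImplicit false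

noncomputable section

namespace Fermat.Agent.EMC

open WeierstrassCurve UpperHalfPlane

variable [DecidableEq ℂ]

/-- **AN0** the lattice curve is elliptic, and `(℘(z), ℘'(z)/2)` is a point of it. -/
def LatCurveStatement : Prop :=
  ∀ L : PeriodPair, (latE L).Δ ≠ 0 ∧
    ∀ z : ℂ, z ∉ L.lattice →
      ∃ h : (latE L).toAffine.Nonsingular (L.weierstrassP z) (L.derivWeierstrassP z / 2),
        latMap L z = .some (L.weierstrassP z) (L.derivWeierstrassP z / 2) h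

/-- **AN1** the addition theorem: `z ↦ (℘(z), ℘'(z)/2)` is a group homomorphism `ℂ → E_Λ(ℂ)`
(its kernel is `Λ` by the definition of `latMap` and AN0). -/
def LatAddStatement : Prop :=
  ∀ (L : PeriodPair) (z w : ℂ), latMap L (z + w) = latMap L z + latMap L w

/-- **AN2a** `j(E_{ℤ + ℤτ}) = E₄(τ)³ / Δ(τ)` (`= Fermat.Agent.F3Dict.jFun τ`). -/
def LatJStatement : Prop :=
  ∀ τ : ℍ, jInv (latE (stdPair τ)) = ModularForm.E₄ τ ^ 3 / ModularForm.discriminant τ

/-- **AN2b** homothetic lattices have the same `j`. -/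
def LatHomothetyStatement : Prop :=
  ∀ (L L' : PeriodPair) (c : ℂ), c ≠ 0 →
    (∀ z : ℂ, z ∈ L'.lattice ↔ ∃ w ∈ L.lattice, z = c * w) → jInv (latE L') = jInv (latE L)

/-- **AN3** lattice form of Vélu's formulas: for `Λ ⊆ Λ'` of finite index, Vélu's quotient of `E_Λ`
by the image of `Λ'` is (on the nose) `E_Λ'`. -/
def LatVeluStatement : Prop :=
  ∀ (L L' : PeriodPair), L.lattice ≤ L'.lattice →
    (∃ n : ℕ, 0 < n ∧ ∀ z ∈ L'.lattice, (n : ℂ) * z ∈ L.lattice) →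
      EV.veluCurve (latE L).toAffine (latMap L '' (L'.lattice : Set ℂ)) = (latE L').toAffine

/-- **AN4a** the analytic modular equation at all `p + 1` points over `j(τ)`. -/
def AnModEqStatement (p : ℕ) [NeZero p] : Prop :=
  ∀ (P : Polynomial (Polynomial ℤ)), IsJRel p P → ∀ (τ τ' : ℍ),
    ((τ' : ℂ) = (p : ℂ) * (τ : ℂ) ∨ ∃ a : ℤ, (p : ℂ) * (τ' : ℂ) = (τ : ℂ) + (a : ℂ)) →
      eval2 P (ModularForm.E₄ τ ^ 3 / ModularForm.discriminant τ)
        (ModularForm.E₄ τ' ^ 3 / ModularForm.discriminant τ') = 0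

/-- **AN4b** the lattices of index `p` over `ℤ + ℤτ`: if `p c ∈ Λ_τ`, `c ∉ Λ_τ`, then `Λ_τ + ℤ c` is
the lattice of a period pair, homothetic to `Λ_τ'` with `τ' = p τ` or `p τ' = τ + a`. -/
def LatIndexStatement (p : ℕ) : Prop :=
  ∀ (τ : ℍ) (c : ℂ), c ∉ (stdPair τ).lattice → (p : ℂ) * c ∈ (stdPair τ).lattice →
    ∃ (L' : PeriodPair) (τ' : ℍ) (e : ℂ), e ≠ 0 ∧
      (∀ z : ℂ, z ∈ L'.lattice ↔ ∃ w ∈ (stdPair τ).lattice, ∃ n : ℤ, z = w + (n : ℂ) * c) ∧
      (∀ z : ℂ, z ∈ L'.lattice ↔ ∃ w ∈ (stdPair τ').lattice, z = e * w) ∧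
      ((τ' : ℂ) = (p : ℂ) * (τ : ℂ) ∨ ∃ a : ℤ, (p : ℂ) * (τ' : ℂ) = (τ : ℂ) + (a : ℂ))

/-- **AN5** the modular equation for the Vélu quotient over `ℂ`. -/
def ModEqComplexStatement (p : ℕ) [NeZero p] : Prop :=
  ∀ (W : WeierstrassCurve ℂ), W.Δ ≠ 0 → ∀ C : AddSubgroup W.toAffine.Point, Nat.card C = p →
    ∀ (P : Polynomial (Polynomial ℤ)), IsJRel p P →
      eval2 P (jInv W) (jInv (EV.veluCurve W.toAffine (C : Set W.toAffine.Point))) = 0

/-- **AN6 = (MP1), the target**: the modular equation for the Vélu quotient over `ℚ̄`: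
`(j(E), j(E/C))` is a specialisation of `(j(q), j(q^p))`. -/
def ModEqStatement (p : ℕ) [NeZero p] : Prop :=
  ∀ [DecidableEq (AlgebraicClosure ℚ)] (W : WeierstrassCurve (AlgebraicClosure ℚ)), W.Δ ≠ 0 →
    ∀ C : AddSubgroup W.toAffine.Point, Nat.card C = p →
      ∀ (P : Polynomial (Polynomial ℤ)), IsJRel p P →
        eval2 P (jInv W) (jInv (EV.veluCurve W.toAffine (C : Set W.toAffine.Point))) = 0

end Fermat.Agent.EMC
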