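/-
Cluster E' (Mazur, S15), seat E-MC, AN6 (helper64): descent of the modular equation from `ℂ` to `ℚ̄`.

`descent p : DescentStatement p` (`ModEqComplexStatement p → ModEqStatement p`).
Choose an embedding `ι : ℚ̄ → ℂ`; the point map `W(ℚ̄) → W_ℂ(ℂ)` is an injective homomorphism, Vélu's
sums, the Vélu curve, `jInv` and `eval2` commute with `ι`, and `ι` is injective.

General part (any field extension `K / F`): `ptMapF`, `veluSumT_ptMapF`, `veluSumW_ptMapF`,
`veluCurve_ptMapF`, `jInv_map`, `eval2_map`.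
-/
import Fermat.Agent.MUL.Orig.E.MC.Statements2
import Fermat.Agent.MUL.E.MC.ChordLim

set_option autoImplicit false
set_option linter.unusedSectionVars false

noncomputable section

namespace Fermat.Agent.EMC

open WeierstrassCurve Fermat.Agent.EV

/-! ### `jInv` and `eval2` commute with ring homomorphisms -/

theorem jInv_map {F K : Type*} [Field F] [Field K] (f : F →+* K) (W : WeierstrassCurve F) :
    jInv (W.map f) = f (jInv W) := by
  unfold jInv
  rw [WeierstrassCurve.map_c₄, WeierstrassCurve.map_Δ, map_div₀, map_pow]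

theorem eval2_map {F K : Type*} [CommRing F] [CommRing K] (f : F →+* K)
    (P : Polynomial (Polynomial ℤ)) (a b : F) : eval2 P (f a) (f b) = f (eval2 P a b) := by
  unfold eval2
  rw [Polynomial.hom_eval₂]
  congr 1
  apply Polynomial.ringHom_ext
  · intro n
    simp
  · simp

/-! ### the point map of a field extension -/

section PtMap

variable {F K : Type*} [Field F] [Field K] [DecidableEq F] [DecidableEq K] [Algebra F K]
  (W : WeierstrassCurve F)

/-- the map `W(F) → W_K(K)` on points -/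
def ptMapF : W.toAffine.Point →+ (W⁄K).toAffine.Point :=
  Affine.Point.map (R := F) (S := F) (F := F) (K := K) (W' := W.toAffine) (Algebra.ofId F K)

theorem ptMapF_injective : Function.Injective (ptMapF (K := K) W) :=
  Affine.Point.map_injective (R := F) (S := F) (F := F) (K := K) (W' := W.toAffine)
    (Algebra.ofId F K)

theorem ptX_ptMapF (Q : W.toAffine.Point) :
    ptX (ptMapF (K := K) W Q) = algebraMap F K (ptX Q) := by
  rcases Q with _ | ⟨x, y, h⟩
  · show ptX (ptMapF (K := K) W 0) = algebraMap F K 0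
    rw [map_zero, map_zero]
    rfl
  · rfl

theorem veluT_ptMapF (Q : W.toAffine.Point) :
    veluT (W⁄K).toAffine (ptMapF (K := K) W Q) = algebraMap F K (veluT W.toAffine Q) := by
  unfold veluT
  rw [ptX_ptMapF]
  have e₂ : (W⁄K).toAffine.b₂ = algebraMap F K W.b₂ := W.map_b₂ _
  have e₄ : (W⁄K).toAffine.b₄ = algebraMap F K W.b₄ := W.map_b₄ _
  rw [e₂, e₄]
  simp only [map_add, map_mul, map_pow, map_ofNat]

theorem veluU_ptMapF (Q : W.toAffine.Point) :
    veluU (W⁄K).toAffine (ptMapF (K := K) W Q) = algebraMap F K (veluU W.toAffine Q) := by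
  unfold veluU
  rw [ptX_ptMapF]
  have e₂ : (W⁄K).toAffine.b₂ = algebraMap F K W.b₂ := W.map_b₂ _
  have e₄ : (W⁄K).toAffine.b₄ = algebraMap F K W.b₄ := W.map_b₄ _
  have e₆ : (W⁄K).toAffine.b₆ = algebraMap F K W.b₆ := W.map_b₆ _
  rw [e₂, e₄, e₆]
  simp only [map_add, map_mul, map_pow, map_ofNat]

/-- sums over the nonzero points of the image -/
theorem finsum_ptMapF (C : Set W.toAffine.Point) (hC : C.Finite)
    (G : (W⁄K).toAffine.Point → K) (g : W.toAffine.Point → F)
    (hG : ∀ Q, G (ptMapF (K := K) W Q) = algebraMap F K (g Q)) :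
    ∑ᶠ (Q' : (W⁄K).toAffine.Point) (_ : Q' ∈ (ptMapF (K := K) W) '' C ∧ Q' ≠ 0), G Q'
      = algebraMap F K (∑ᶠ (Q : W.toAffine.Point) (_ : Q ∈ C ∧ Q ≠ 0), g Q) := by
  have hfin : {Q : W.toAffine.Point | Q ∈ C ∧ Q ≠ 0}.Finite := hC.subset (fun _ h => h.1)
  have h1 : algebraMap F K (∑ᶠ (Q : W.toAffine.Point) (_ : Q ∈ C ∧ Q ≠ 0), g Q)
      = ∑ᶠ (Q : W.toAffine.Point) (_ : Q ∈ C ∧ Q ≠ 0), algebraMap F K (g Q) :=
    AddMonoidHom.map_finsum_mem (s := {Q : W.toAffine.Point | Q ∈ C ∧ Q ≠ 0}) g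
      (algebraMap F K).toAddMonoidHom hfin
  rw [h1]
  symm
  refine finsum_mem_eq_of_bijOn (s := {Q : W.toAffine.Point | Q ∈ C ∧ Q ≠ 0})
    (t := {Q' : (W⁄K).toAffine.Point | Q' ∈ (ptMapF (K := K) W) '' C ∧ Q' ≠ 0})
    (ptMapF (K := K) W) ⟨?_, (ptMapF_injective W).injOn, ?_⟩ (fun Q _ => (hG Q).symm)
  · rintro Q ⟨hQ, hQ0⟩
    refine ⟨⟨Q, hQ, rfl⟩, fun h0 => hQ0 ?_⟩
    apply ptMapF_injective (K := K) W
    rw [h0, map_zero]
  · rintro Q' ⟨⟨Q, hQ, rfl⟩, hQ0⟩
    refine ⟨Q, ⟨hQ, fun h0 => hQ0 ?_⟩, rfl⟩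
    rw [h0, map_zero]

theorem veluSumT_ptMapF (C : Set W.toAffine.Point) (hC : C.Finite) :
    veluSumT (W⁄K).toAffine ((ptMapF (K := K) W) '' C)
      = algebraMap F K (veluSumT W.toAffine C) := by
  unfold veluSumT
  rw [finsum_ptMapF W C hC (veluT (W⁄K).toAffine) (veluT W.toAffine) (veluT_ptMapF W),
    map_div₀, map_ofNat]

theorem veluSumW_ptMapF (C : Set W.toAffine.Point) (hC : C.Finite) :
    veluSumW (W⁄K).toAffine ((ptMapF (K := K) W) '' C)
      = algebraMap F K (veluSumW W.toAffine C) := by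
  unfold veluSumW
  rw [finsum_ptMapF W C hC
    (fun Q' => veluU (W⁄K).toAffine Q' + ptX Q' * veluT (W⁄K).toAffine Q')
    (fun Q => veluU W.toAffine Q + ptX Q * veluT W.toAffine Q)
    (fun Q => by rw [veluU_ptMapF, veluT_ptMapF, ptX_ptMapF, map_add, map_mul]),
    map_div₀, map_ofNat]

/-- the Vélu curve commutes with base change -/
theorem veluCurve_ptMapF (C : Set W.toAffine.Point) (hC : C.Finite) :
    veluCurve (W⁄K).toAffine ((ptMapF (K := K) W) '' C)
      = (veluCurve W.toAffine C).map (algebraMap F K) := by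
  have e₂ : (W⁄K).toAffine.b₂ = algebraMap F K W.b₂ := W.map_b₂ _
  apply WeierstrassCurve.ext
  · rfl
  · rfl
  · rfl
  · show (W⁄K).a₄ - 5 * veluSumT (W⁄K).toAffine ((ptMapF (K := K) W) '' C)
      = algebraMap F K (W.a₄ - 5 * veluSumT W.toAffine C)
    rw [veluSumT_ptMapF W C hC, map_sub, map_mul, map_ofNat]
    rfl
  · show (W⁄K).a₆ - (W⁄K).toAffine.b₂ * veluSumT (W⁄K).toAffine ((ptMapF (K := K) W) '' C)
        - 7 * veluSumW (W⁄K).toAffine ((ptMapF (K := K) W) '' C)
      = algebraMap F K (W.a₆ - W.b₂ * veluSumT W.toAffine C - 7 * veluSumW W.toAffine C)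
    rw [veluSumT_ptMapF W C hC, veluSumW_ptMapF W C hC, e₂, map_sub, map_sub, map_mul,
      map_mul, map_ofNat]
    rfl

end PtMap

/-! ### the descent -/

/-- **AN6** -/
theorem descent (p : ℕ) [NeZero p] [DecidableEq ℂ] : DescentStatement p := by
  intro hC inst W hΔ C hcard P hP
  have halg : Algebra.IsAlgebraic ℚ (AlgebraicClosure ℚ) := AlgebraicClosure.isAlgebraic ℚ
  let ι : AlgebraicClosure ℚ →+* ℂ :=
    (IsAlgClosed.lift (R := ℚ) (S := AlgebraicClosure ℚ) (M := ℂ)).toRingHom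
  let _ : Algebra (AlgebraicClosure ℚ) ℂ := ι.toAlgebra
  have hfinC : Finite C := Nat.finite_of_card_ne_zero (by rw [hcard]; exact NeZero.ne p)
  have hfin : (C : Set W.toAffine.Point).Finite := Set.toFinite _
  have hΔ' : (W⁄ℂ).Δ ≠ 0 := by
    rw [WeierstrassCurve.baseChange, WeierstrassCurve.map_Δ]
    exact (map_ne_zero _).mpr hΔ
  have hcard' : Nat.card (C.map (ptMapF (K := ℂ) W)) = p := by
    rw [← hcard]
    exact Nat.card_congr (C.equivMapOfInjective _ (ptMapF_injective W)).toEquiv.symm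
  have key := hC (W⁄ℂ) hΔ' (C.map (ptMapF (K := ℂ) W)) hcard' P hP
  rw [AddSubgroup.coe_map, veluCurve_ptMapF W _ hfin] at key
  have e1 : jInv (W⁄ℂ) = algebraMap (AlgebraicClosure ℚ) ℂ (jInv W) := jInv_map _ W
  have e2 : jInv ((veluCurve W.toAffine (C : Set W.toAffine.Point)).map
      (algebraMap (AlgebraicClosure ℚ) ℂ))
      = algebraMap (AlgebraicClosure ℚ) ℂ
        (jInv (veluCurve W.toAffine (C : Set W.toAffine.Point))) := jInv_map _ _
  rw [e1] at key
  erw [e2] at key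
  rw [eval2_map] at key
  exact (map_eq_zero_iff _ (algebraMap (AlgebraicClosure ℚ) ℂ).injective).mp key

end Fermat.Agent.EMC
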